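/-
S25 / block ABEL, sub-block AB-ALG (helper86): leaves G1 `homDatum_self_isIso` and
G2 `homDatum_isIso_congr` of helper747's skeleton (general gluing-data calculus).
-/
import Fermat.Agent.S25.H747.GDHom

set_option autoImplicit false
universe u
open scoped TensorProduct

namespace Fermat.Agent.S25.H86

open Fermat.Agent.S25 Fermat.Agent.S25.H747

noncomputable section

/-- Scalar multiplication `R → End_R(M)` is a linear equivalence for invertible `M`. -/
def lsmulEquiv (R : Type*) (M : Type*) [CommRing R] [AddCommGroup M] [Module R M]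
    [Module.Invertible R M] : R ≃ₗ[R] (M →ₗ[R] M) :=
  LinearEquiv.ofBijective (LinearMap.lsmul R M) (by
    have h := Module.Invertible.toModuleEnd_bijective R M
    have e : ⇑(LinearMap.lsmul R M) = ⇑(Module.toModuleEnd R (S := R) M) := by
      funext r
      ext m
      simp
    rw [e]
    exact h)

@[simp] theorem lsmulEquiv_apply (R : Type*) (M : Type*) [CommRing R] [AddCommGroup M]
    [Module R M] [Module.Invertible R M] (r : R) (m : M) :
    lsmulEquiv R M r m = r • m := rfl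

variable {A R₀ R₁ R₀₁ : Type u} [CommRing A] [CommRing R₀] [CommRing R₁]
    [CommRing R₀₁] [Algebra A R₀] [Algebra A R₁] [Algebra A R₀₁] [Algebra R₀ R₀₁]
    [Algebra R₁ R₀₁] [IsScalarTower A R₀ R₀₁] [IsScalarTower A R₁ R₀₁]

/-- The module on the overlap of a gluing datum is invertible. -/
theorem invertible₀₁ (G : GlueDatum A R₀ R₁ R₀₁) : Module.Invertible R₀₁ G.N₀₁ :=
  haveI := G.invertible₀
  Module.Invertible.congr G.isBaseChange₀.equiv

/-- Two `S`-linear maps out of a base change agree if they agree on the image. -/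
theorem linearMap_ext_of_isBaseChange {R S M P Q : Type*} [CommRing R] [CommRing S]
    [Algebra R S] [AddCommGroup M] [Module R M] [AddCommGroup P] [Module R P] [Module S P]
    [IsScalarTower R S P] [AddCommGroup Q] [Module S Q]
    {α : M →ₗ[R] P} (j : IsBaseChange S α) {f g : P →ₗ[S] Q}
    (h : ∀ m, f (α m) = g (α m)) : f = g := by
  ext p
  induction p using j.inductionOn with
  | zero => simp
  | tmul m => exact h m
  | smul s p hp => simp [hp]
  | add p q hp hq => simp [hp, hq]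

/-- **G1.** `ℋom(G, G) ≅ O`. -/
theorem homDatum_self_isIso (G : GlueDatum A R₀ R₁ R₀₁) :
    (homDatum G G).IsIso (GlueDatum.unit A R₀ R₁ R₀₁) := by
  have := G.invertible₀
  have := G.invertible₁
  have := invertible₀₁ G
  have key₀ : ∀ a : R₀, (homDatum G G).r₀ (lsmulEquiv R₀ G.N₀ a) =
      lsmulEquiv R₀₁ G.N₀₁ (algebraMap R₀ R₀₁ a) := by
    intro a
    apply linearMap_ext_of_isBaseChange G.isBaseChange₀
    intro m
    change IsBaseChange.linearMapLeftRightHom G.isBaseChange₀ G.r₀ _ (G.r₀ m) = _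
    rw [IsBaseChange.linearMapLeftRightHom_comp_apply]
    simp
  have key₁ : ∀ a : R₁, (homDatum G G).r₁ (lsmulEquiv R₁ G.N₁ a) =
      lsmulEquiv R₀₁ G.N₀₁ (algebraMap R₁ R₀₁ a) := by
    intro a
    apply linearMap_ext_of_isBaseChange G.isBaseChange₁
    intro m
    change IsBaseChange.linearMapLeftRightHom G.isBaseChange₁ G.r₁ _ (G.r₁ m) = _
    rw [IsBaseChange.linearMapLeftRightHom_comp_apply]
    simp
  refine ⟨{
    e₀ := (lsmulEquiv R₀ G.N₀).symm
    e₁ := (lsmulEquiv R₁ G.N₁).symm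
    e₀₁ := (lsmulEquiv R₀₁ G.N₀₁).symm
    comm₀ := ?_
    comm₁ := ?_ }⟩
  · intro s
    obtain ⟨a, rfl⟩ := (lsmulEquiv R₀ G.N₀).surjective s
    rw [key₀]
    exact ((lsmulEquiv R₀₁ G.N₀₁).symm_apply_apply _).trans
      (congrArg (algebraMap R₀ R₀₁) ((lsmulEquiv R₀ G.N₀).symm_apply_apply a).symm)
  · intro s
    obtain ⟨a, rfl⟩ := (lsmulEquiv R₁ G.N₁).surjective s
    rw [key₁]
    exact ((lsmulEquiv R₀₁ G.N₀₁).symm_apply_apply _).trans
      (congrArg (algebraMap R₁ R₀₁) ((lsmulEquiv R₁ G.N₁).symm_apply_apply a).symm)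

/-- **G2.** `ℋom` respects isomorphisms. -/
theorem homDatum_isIso_congr {G G₁ G' G₁' : GlueDatum A R₀ R₁ R₀₁} (h : G.IsIso G₁)
    (h' : G'.IsIso G₁') : (homDatum G G').IsIso (homDatum G₁ G₁') := by
  obtain ⟨i⟩ := h
  obtain ⟨i'⟩ := h'
  have s₀ : ∀ m, i.e₀₁.symm (G₁.r₀ m) = G.r₀ (i.e₀.symm m) := by
    intro m
    rw [LinearEquiv.symm_apply_eq, i.comm₀, LinearEquiv.apply_symm_apply]
  have s₁ : ∀ m, i.e₀₁.symm (G₁.r₁ m) = G.r₁ (i.e₁.symm m) := by
    intro m
    rw [LinearEquiv.symm_apply_eq, i.comm₁, LinearEquiv.apply_symm_apply]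
  refine ⟨{
    e₀ := LinearEquiv.arrowCongr i.e₀ i'.e₀
    e₁ := LinearEquiv.arrowCongr i.e₁ i'.e₁
    e₀₁ := LinearEquiv.arrowCongr i.e₀₁ i'.e₀₁
    comm₀ := ?_
    comm₁ := ?_ }⟩
  · intro (s : G.N₀ →ₗ[R₀] G'.N₀)
    apply linearMap_ext_of_isBaseChange G₁.isBaseChange₀
    intro m
    have e1 := IsBaseChange.linearMapLeftRightHom_comp_apply G.isBaseChange₀ G'.r₀ s
      (i.e₀.symm m)
    have e2 := IsBaseChange.linearMapLeftRightHom_comp_apply G₁.isBaseChange₀ G₁'.r₀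
      (LinearEquiv.arrowCongr i.e₀ i'.e₀ s) m
    change i'.e₀₁ (IsBaseChange.linearMapLeftRightHom G.isBaseChange₀ G'.r₀ s
        (i.e₀₁.symm (G₁.r₀ m))) =
      IsBaseChange.linearMapLeftRightHom G₁.isBaseChange₀ G₁'.r₀
        (LinearEquiv.arrowCongr i.e₀ i'.e₀ s) (G₁.r₀ m)
    rw [s₀, e1, e2, i'.comm₀]
    rfl
  · intro (s : G.N₁ →ₗ[R₁] G'.N₁)
    apply linearMap_ext_of_isBaseChange G₁.isBaseChange₁
    intro m
    have e1 := IsBaseChange.linearMapLeftRightHom_comp_apply G.isBaseChange₁ G'.r₁ s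
      (i.e₁.symm m)
    have e2 := IsBaseChange.linearMapLeftRightHom_comp_apply G₁.isBaseChange₁ G₁'.r₁
      (LinearEquiv.arrowCongr i.e₁ i'.e₁ s) m
    change i'.e₀₁ (IsBaseChange.linearMapLeftRightHom G.isBaseChange₁ G'.r₁ s
        (i.e₀₁.symm (G₁.r₁ m))) =
      IsBaseChange.linearMapLeftRightHom G₁.isBaseChange₁ G₁'.r₁
        (LinearEquiv.arrowCongr i.e₁ i'.e₁ s) (G₁.r₁ m)
    rw [s₁, e1, e2, i'.comm₁]
    rfl

end

end Fermat.Agent.S25.H86
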