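import Mathlib

/-!
# S25, pillar `Val`: the commutative-algebra core

* `surjective_of_forall_fibreSurj` (VA): a linear map into a finite `R`-module (`R` a `V`-algebra)
  which is surjective on every fibre `κ(p) ⊗ -`, `p` a prime of `V`, is surjective.
* `exists_generator_primitive` (VB): over a valuation ring `V`, a finitely generated saturated
  rank-one submodule `H` of a torsion-free module `E` is generated by a vector which does not
  vanish in any fibre `κ(p) ⊗ E`.
-/

set_option autoImplicit false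
set_option linter.style.haveILetI false

namespace Fermat.Agent.S25.H86

section VA

variable {V R M N : Type*} [CommRing V] [CommRing R] [Algebra V R]
  [AddCommGroup M] [AddCommGroup N] [Module R M] [Module R N]

/-- Elementary form of "`κ(p) ⊗ f` is surjective". -/
def FibreSurj (f : M →ₗ[R] N) (p : Ideal V) : Prop :=
  ∀ x : N, ∃ t : V, t ∉ p ∧
    algebraMap V R t • x ∈ LinearMap.range f ⊔ (p.map (algebraMap V R)) • (⊤ : Submodule R N)

/-- Elementary form of "`x` vanishes in `κ(p) ⊗ N`". -/
def FibreZero (R : Type*) [CommRing R] [Algebra V R] {N : Type*} [AddCommGroup N] [Module R N]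
    (p : Ideal V) (x : N) : Prop :=
  ∃ t : V, t ∉ p ∧ algebraMap V R t • x ∈ (p.map (algebraMap V R)) • (⊤ : Submodule R N)

theorem surjective_of_forall_fibreSurj [Module.Finite R N] (f : M →ₗ[R] N)
    (h : ∀ p : Ideal V, p.IsPrime → FibreSurj f p) : Function.Surjective f := by
  classical
  rw [← LinearMap.range_eq_top]
  by_contra hne
  -- the cokernel
  set Q := N ⧸ LinearMap.range f with hQ
  have hQne : Module.annihilator R Q ≠ ⊤ := by
    intro htop
    apply hne
    rw [eq_top_iff]
    intro x _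
    have h1 : (1 : R) ∈ Module.annihilator R Q := by rw [htop]; trivial
    have h2 := Module.mem_annihilator.mp h1 (Submodule.Quotient.mk x)
    rw [one_smul] at h2
    exact (Submodule.Quotient.mk_eq_zero _).mp h2
  obtain ⟨P, hPmax, hPle⟩ := Ideal.exists_le_maximal _ hQne
  haveI hPprime : P.IsPrime := hPmax.isPrime
  set p : Ideal V := P.comap (algebraMap V R) with hp
  haveI : p.IsPrime := Ideal.comap_isPrime _ _
  set I : Ideal R := p.map (algebraMap V R) with hI
  have hIP : I ≤ P := Ideal.map_comap_le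
  -- a common multiplier for a finite generating set
  obtain ⟨s, hs⟩ := (Module.Finite.fg_top : (⊤ : Submodule R N).FG)
  have hmul : ∀ x ∈ s, ∃ t : V, t ∉ p ∧
      algebraMap V R t • x ∈ LinearMap.range f ⊔ I • (⊤ : Submodule R N) := fun x _ => h p ‹_› x
  choose! τ hτ using hmul
  set t : V := ∏ x ∈ s, τ x with ht
  have htp : t ∉ p := by
    intro hmem
    obtain ⟨x, hx, hxp⟩ := (Ideal.IsPrime.prod_mem_iff).mp hmem
    exact (hτ x hx).1 hxp
  have hts : ∀ x ∈ s, algebraMap V R t • x ∈ LinearMap.range f ⊔ I • (⊤ : Submodule R N) := by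
    intro x hx
    have : t = (∏ y ∈ s.erase x, τ y) * τ x := by
      rw [ht, Finset.prod_erase_mul _ _ hx]
    rw [this, map_mul, mul_smul]
    exact Submodule.smul_mem _ _ (hτ x hx).2
  have htN : ∀ x : N, algebraMap V R t • x ∈ LinearMap.range f ⊔ I • (⊤ : Submodule R N) := by
    intro x
    have hx : x ∈ Submodule.span R (s : Set N) := by rw [hs]; trivial
    refine Submodule.span_induction (p := fun x _ =>
      algebraMap V R t • x ∈ LinearMap.range f ⊔ I • (⊤ : Submodule R N)) ?_ ?_ ?_ ?_ hx
    · intro y hy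
      exact hts y hy
    · rw [smul_zero]; exact Submodule.zero_mem _
    · intro y z _ _ hy hz
      rw [smul_add]; exact Submodule.add_mem _ hy hz
    · intro r y _ hy
      rw [smul_comm]; exact Submodule.smul_mem _ _ hy
  -- multiplication by `t` on `Q` has range in `I • ⊤`
  set μ : Module.End R Q := algebraMap R (Module.End R Q) (algebraMap V R t) with hμ
  have hrange : LinearMap.range μ ≤ I • (⊤ : Submodule R Q) := by
    rintro _ ⟨q, rfl⟩
    obtain ⟨x, rfl⟩ := Submodule.Quotient.mk_surjective _ q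
    have hx := htN x
    obtain ⟨y, hy, z, hz, hyz⟩ := Submodule.mem_sup.mp hx
    have h1 : μ (Submodule.Quotient.mk x) =
        (LinearMap.range f).mkQ (algebraMap V R t • x) := by
      simp [hμ, Module.algebraMap_end_apply]
    rw [h1, ← hyz, map_add]
    have h2 : (LinearMap.range f).mkQ y = 0 := by
      simpa using hy
    rw [h2, zero_add]
    have h3 : (I • (⊤ : Submodule R N)).map (LinearMap.range f).mkQ ≤
        I • (⊤ : Submodule R Q) := by
      rw [Submodule.map_smul'']
      exact Submodule.smul_mono le_rfl le_top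
    exact h3 ⟨z, hz, rfl⟩
  obtain ⟨g, hgmonic, -, hgcoeff, hgzero⟩ :=
    LinearMap.exists_monic_and_natDegree_eq_and_coeff_mem_pow_and_aeval_eq_zero R μ I hrange
  -- `g (t)` annihilates `Q`
  have hann : g.eval (algebraMap V R t) ∈ Module.annihilator R Q := by
    rw [Module.mem_annihilator]
    intro q
    have h1 : Polynomial.aeval μ g = algebraMap R (Module.End R Q) (g.eval (algebraMap V R t)) := by
      rw [hμ, Polynomial.aeval_algebraMap_apply, Polynomial.aeval_def]
      rfl
    have h2 := congrArg (fun φ : Module.End R Q => φ q) hgzero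
    simp only [h1, Module.algebraMap_end_apply, LinearMap.zero_apply] at h2
    exact h2
  have hP : g.eval (algebraMap V R t) ∈ P := hPle hann
  -- but `g (t) ≡ t ^ n` modulo `I ⊆ P`
  have hpow : (algebraMap V R t) ^ g.natDegree ∈ P := by
    rw [Polynomial.eval_eq_sum_range, Finset.sum_range_succ, hgmonic.coeff_natDegree,
      one_mul] at hP
    have hlow : ∑ k ∈ Finset.range g.natDegree, g.coeff k * (algebraMap V R t) ^ k ∈ P := by
      refine Ideal.sum_mem _ fun k hk => ?_
      refine Ideal.mul_mem_right _ _ (hIP ?_)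
      have hk' : k < g.natDegree := Finset.mem_range.mp hk
      have := hgcoeff k
      exact Ideal.pow_le_self (by omega) this
    exact (Ideal.add_mem_iff_right _ hlow).mp hP
  have htP : algebraMap V R t ∈ P := hPprime.mem_of_pow_mem _ hpow
  exact htp htP

end VA

section VB

variable {V : Type*} [CommRing V] [IsDomain V] [ValuationRing V]

/-- Over a valuation ring, every element of `p • ⊤` is a multiple of a single element of `p`. -/
theorem exists_eq_smul_of_mem_smul_top {E : Type*} [AddCommGroup E] [Module V E] (p : Ideal V)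
    {e : E} (he : e ∈ p • (⊤ : Submodule V E)) : ∃ m ∈ p, ∃ e' : E, e = m • e' := by
  refine Submodule.smul_induction_on (p := fun e => ∃ m ∈ p, ∃ e' : E, e = m • e') he ?_ ?_
  · intro r hr n _
    exact ⟨r, hr, n, rfl⟩
  · rintro x y ⟨m₁, hm₁, x', rfl⟩ ⟨m₂, hm₂, y', rfl⟩
    rcases ValuationRing.dvd_total m₁ m₂ with ⟨c, hc⟩ | ⟨c, hc⟩
    · refine ⟨m₁, hm₁, x' + c • y', ?_⟩
      rw [hc, smul_add, mul_smul]
    · refine ⟨m₂, hm₂, c • x' + y', ?_⟩
      rw [hc, smul_add, mul_smul]

/-- Two linearly dependent vectors of a torsion-free module over a valuation ring: one is a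
multiple of the other. -/
theorem exists_smul_eq_or_of_dependent {E : Type*} [AddCommGroup E] [Module V E]
    [Module.IsTorsionFree V E] {x y : E} (h : ∃ a b : V, (a ≠ 0 ∨ b ≠ 0) ∧ a • x = b • y) :
    (∃ c : V, x = c • y) ∨ (∃ c : V, y = c • x) := by
  obtain ⟨a, b, hab, hxy⟩ := h
  rcases ValuationRing.dvd_total a b with ⟨c, hc⟩ | ⟨c, hc⟩
  · have ha : a ≠ 0 := by
      rcases hab with ha | hb
      · exact ha
      · intro h0
        apply hb
        rw [hc, h0, zero_mul]
    left
    refine ⟨c, ?_⟩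
    rw [hc, mul_smul] at hxy
    exact smul_right_injective E ha hxy
  · have hb : b ≠ 0 := by
      rcases hab with ha | hb
      · intro h0
        apply ha
        rw [hc, h0, zero_mul]
      · exact hb
    right
    refine ⟨c, ?_⟩
    rw [hc, mul_smul] at hxy
    exact (smul_right_injective E hb hxy).symm

/-- In a finite nonempty set of pairwise dependent vectors there is one of which all the others
are multiples. -/
theorem exists_forall_smul_eq {E : Type*} [AddCommGroup E] [Module V E]
    [Module.IsTorsionFree V E] (S : Finset E) (hS : S.Nonempty)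
    (hdep : ∀ x ∈ S, ∀ y ∈ S, ∃ a b : V, (a ≠ 0 ∨ b ≠ 0) ∧ a • x = b • y) :
    ∃ s₀ ∈ S, ∀ x ∈ S, ∃ c : V, x = c • s₀ := by
  classical
  induction hS using Finset.Nonempty.cons_induction with
  | singleton a => exact ⟨a, Finset.mem_singleton_self a, fun x hx =>
      ⟨1, by rw [Finset.mem_singleton.mp hx, one_smul]⟩⟩
  | cons a S ha hS ih =>
    obtain ⟨s₀, hs₀, h₀⟩ := ih (fun x hx y hy =>
      hdep x (Finset.mem_cons.mpr (Or.inr hx)) y (Finset.mem_cons.mpr (Or.inr hy)))
    rcases exists_smul_eq_or_of_dependent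
      (hdep a (Finset.mem_cons_self a S) s₀ (Finset.mem_cons.mpr (Or.inr hs₀))) with
      ⟨c, hc⟩ | ⟨c, hc⟩
    · refine ⟨s₀, Finset.mem_cons.mpr (Or.inr hs₀), fun x hx => ?_⟩
      rcases Finset.mem_cons.mp hx with rfl | hx
      · exact ⟨c, hc⟩
      · exact h₀ x hx
    · refine ⟨a, Finset.mem_cons_self a S, fun x hx => ?_⟩
      rcases Finset.mem_cons.mp hx with rfl | hx
      · exact ⟨1, by rw [one_smul]⟩
      · obtain ⟨d, hd⟩ := h₀ x hx
        exact ⟨d * c, by rw [hd, hc, mul_smul]⟩

/-- **(VB)** Over a valuation ring, a finitely generated, saturated, nonzero submodule of rank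
one of a torsion-free module is generated by a single vector, and this vector does not vanish
in any fibre. -/
theorem exists_generator_primitive {E : Type*} [AddCommGroup E] [Module V E]
    [Module.IsTorsionFree V E] (H : Submodule V E) (hfg : H.FG) (hne : H ≠ ⊥)
    (hsat : ∀ (v : V) (e : E), v ≠ 0 → v • e ∈ H → e ∈ H)
    (hrk : ∀ x ∈ H, ∀ y ∈ H, ∃ a b : V, (a ≠ 0 ∨ b ≠ 0) ∧ a • x = b • y) :
    ∃ s₀ ∈ H, s₀ ≠ 0 ∧ (∀ h ∈ H, ∃ a : V, h = a • s₀) ∧
      ∀ (p : Ideal V), p.IsPrime → ∀ t : V, t ∉ p → t • s₀ ∉ p • (⊤ : Submodule V E) := by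
  classical
  obtain ⟨S, hS⟩ := hfg
  have hSH : ∀ x ∈ S, x ∈ H := fun x hx => by
    rw [← hS]; exact Submodule.subset_span hx
  have hSne : S.Nonempty := by
    by_contra h0
    rw [Finset.not_nonempty_iff_eq_empty] at h0
    apply hne
    rw [← hS, h0]
    simp
  obtain ⟨s₀, hs₀, h₀⟩ := exists_forall_smul_eq S hSne
    (fun x hx y hy => hrk x (hSH x hx) y (hSH y hy))
  have hgen : ∀ h ∈ H, ∃ a : V, h = a • s₀ := by
    intro h hh
    rw [← hS] at hh
    refine Submodule.span_induction (p := fun h _ => ∃ a : V, h = a • s₀) ?_ ?_ ?_ ?_ hh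
    · intro x hx
      exact h₀ x hx
    · exact ⟨0, by rw [zero_smul]⟩
    · rintro x y _ _ ⟨a, rfl⟩ ⟨b, rfl⟩
      exact ⟨a + b, by rw [add_smul]⟩
    · rintro r x _ ⟨a, rfl⟩
      exact ⟨r * a, by rw [mul_smul]⟩
  have hs₀ne : s₀ ≠ 0 := by
    intro h0
    apply hne
    rw [eq_bot_iff]
    intro h hh
    obtain ⟨a, ha⟩ := hgen h hh
    rw [ha, h0, smul_zero]
    exact Submodule.zero_mem _
  refine ⟨s₀, hSH s₀ hs₀, hs₀ne, hgen, ?_⟩
  intro p hp t htp hmem
  obtain ⟨m, hm, e', he'⟩ := exists_eq_smul_of_mem_smul_top p hmem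
  by_cases hm0 : m = 0
  · rw [hm0, zero_smul] at he'
    rcases smul_eq_zero.mp he' with h | h
    · exact htp (h ▸ p.zero_mem)
    · exact hs₀ne h
  · have he'H : e' ∈ H := hsat m e' hm0 (he' ▸ H.smul_mem t (hSH s₀ hs₀))
    obtain ⟨a, ha⟩ := hgen e' he'H
    rw [ha, ← mul_smul] at he'
    have : t = m * a := smul_left_injective V hs₀ne he'
    exact htp (this ▸ p.mul_mem_right a hm)

end VB

end Fermat.Agent.S25.H86
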