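import Mathlib
import Fermat.Agent.S25.H86.ValCore

/-!
# S25, pillar `Val`: the algebraic theorem

`V` a valuation ring.  For `i` in a finite index set: `R i` a `V`-algebra (sections of the
structure sheaf over the `i`-th affine chart of `C_V`), `N i`, `N' i` finite `R i`-modules (sections
of two line bundles), `N' i` torsion-free over `V` with the content property.
`H` = a `V`-stable additive subgroup of families of linear maps `N i → N' i` (the global
homomorphisms), saturated, of rank one, nonzero, such that every member either vanishes on the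
fibre over `p` or is surjective on the fibre over `p` (for all primes `p` of `V`).
Then some member of `H` is surjective on every chart.
-/

set_option autoImplicit false
set_option linter.style.haveILetI false
set_option linter.unusedSectionVars false

namespace Fermat.Agent.S25.H86

section Lemmas

variable {V : Type*} [CommRing V] [IsDomain V] [ValuationRing V]
  {R : Type*} [CommRing R] [Algebra V R]
  {N N' : Type*} [AddCommGroup N] [Module R N] [AddCommGroup N'] [Module R N']

/-- `V`-torsion-freeness of an `R`-module, in elementary form. -/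
def VTorsionFree (V : Type*) [CommRing V] {R : Type*} [CommRing R] [Algebra V R]
    (N' : Type*) [AddCommGroup N'] [Module R N'] : Prop :=
  ∀ (v : V) (y : N'), v ≠ 0 → algebraMap V R v • y = 0 → y = 0

/-- The content property: every nonzero vector is a multiple of a vector which is nonzero modulo
the maximal ideal of `V`. -/
def HasContent (V : Type*) [CommRing V] [IsLocalRing V] {R : Type*} [CommRing R] [Algebra V R]
    (N' : Type*) [AddCommGroup N'] [Module R N'] : Prop :=
  ∀ y : N', y ≠ 0 → ∃ (c : V) (y' : N'), y = algebraMap V R c • y' ∧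
    y' ∉ ((IsLocalRing.maximalIdeal V).map (algebraMap V R)) • (⊤ : Submodule R N')

theorem VTorsionFree.cancel (h : VTorsionFree V (R := R) N') {v : V} (hv : v ≠ 0) {y z : N'}
    (hyz : algebraMap V R v • y = algebraMap V R v • z) : y = z := by
  rw [← sub_eq_zero]
  apply h v _ hv
  rw [smul_sub, hyz, sub_self]

/-- Over a valuation ring, every element of `(p R) • ⊤` is a multiple of a single element of
`p`. -/
theorem exists_eq_algebraMap_smul_of_mem (p : Ideal V) {e : N'}
    (he : e ∈ (p.map (algebraMap V R)) • (⊤ : Submodule R N')) :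
    ∃ m ∈ p, ∃ y : N', e = algebraMap V R m • y := by
  have hI : ∀ r ∈ p.map (algebraMap V R), ∃ m ∈ p, ∃ r' : R, r = algebraMap V R m * r' := by
    intro r hr
    refine Submodule.span_induction (p := fun r _ => ∃ m ∈ p, ∃ r' : R, r = algebraMap V R m * r')
      ?_ ?_ ?_ ?_ hr
    · rintro _ ⟨m, hm, rfl⟩
      exact ⟨m, hm, 1, by rw [mul_one]⟩
    · exact ⟨0, p.zero_mem, 0, by simp⟩
    · rintro x y _ _ ⟨m₁, hm₁, x', rfl⟩ ⟨m₂, hm₂, y', rfl⟩
      rcases ValuationRing.dvd_total m₁ m₂ with ⟨c, hc⟩ | ⟨c, hc⟩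
      · refine ⟨m₁, hm₁, x' + algebraMap V R c * y', ?_⟩
        rw [hc, map_mul]; ring
      · refine ⟨m₂, hm₂, algebraMap V R c * x' + y', ?_⟩
        rw [hc, map_mul]; ring
    · rintro a x _ ⟨m, hm, x', rfl⟩
      exact ⟨m, hm, a * x', by rw [smul_eq_mul]; ring⟩
  refine Submodule.smul_induction_on (p := fun e => ∃ m ∈ p, ∃ y : N', e = algebraMap V R m • y)
    he ?_ ?_
  · intro r hr n _
    obtain ⟨m, hm, r', rfl⟩ := hI r hr
    exact ⟨m, hm, r' • n, by rw [mul_smul]⟩
  · rintro x y ⟨m₁, hm₁, x', rfl⟩ ⟨m₂, hm₂, y', rfl⟩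
    rcases ValuationRing.dvd_total m₁ m₂ with ⟨c, hc⟩ | ⟨c, hc⟩
    · refine ⟨m₁, hm₁, x' + algebraMap V R c • y', ?_⟩
      rw [hc, map_mul, smul_add, mul_smul]
    · refine ⟨m₂, hm₂, algebraMap V R c • x' + y', ?_⟩
      rw [hc, map_mul, smul_add, mul_smul]

/-- Division of a linear map by a nonzero scalar of `V` dividing all its values. -/
theorem exists_linearMap_eq_smul (htf : VTorsionFree V (R := R) N') (f : N →ₗ[R] N') {c : V}
    (hc : c ≠ 0) (hdiv : ∀ n : N, ∃ y : N', f n = algebraMap V R c • y) :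
    ∃ g : N →ₗ[R] N', f = algebraMap V R c • g := by
  choose γ hγ using hdiv
  refine ⟨{ toFun := γ, map_add' := ?_, map_smul' := ?_ }, ?_⟩
  · intro x y
    apply htf.cancel hc
    rw [smul_add, ← hγ, ← hγ, ← hγ, map_add]
  · intro r x
    apply htf.cancel hc
    rw [RingHom.id_apply, smul_comm, ← hγ, ← hγ, map_smul]
  · ext n
    exact hγ n

/-- Divisibility of the values of a linear map can be checked on generators. -/
theorem forall_exists_eq_smul_of_span (f : N →ₗ[R] N') (c : V) (S : Set N)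
    (hS : Submodule.span R S = ⊤) (hdiv : ∀ n ∈ S, ∃ y : N', f n = algebraMap V R c • y) :
    ∀ n : N, ∃ y : N', f n = algebraMap V R c • y := by
  intro n
  have hn : n ∈ Submodule.span R S := by rw [hS]; trivial
  refine Submodule.span_induction (p := fun n _ => ∃ y : N', f n = algebraMap V R c • y)
    ?_ ?_ ?_ ?_ hn
  · exact hdiv
  · exact ⟨0, by simp⟩
  · rintro x y _ _ ⟨x', hx⟩ ⟨y', hy⟩
    exact ⟨x' + y', by rw [map_add, hx, hy, smul_add]⟩
  · rintro r x _ ⟨x', hx⟩
    exact ⟨r • x', by rw [map_smul, hx, smul_comm]⟩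

/-- In a finite nonempty family of elements of a valuation ring, one member divides all the
others. -/
theorem exists_dvd_all_finset {ι : Type*} (s : Finset ι) (hs : s.Nonempty) (a : ι → V) :
    ∃ i ∈ s, ∀ j ∈ s, a i ∣ a j := by
  classical
  induction hs using Finset.Nonempty.cons_induction with
  | singleton i => exact ⟨i, Finset.mem_singleton_self i, fun j hj => by
      rw [Finset.mem_singleton.mp hj]⟩
  | cons i s hi hs ih =>
    obtain ⟨i₀, hi₀, h₀⟩ := ih
    rcases ValuationRing.dvd_total (a i) (a i₀) with h | h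
    · refine ⟨i, Finset.mem_cons_self i s, fun j hj => ?_⟩
      rcases Finset.mem_cons.mp hj with rfl | hj
      · exact dvd_rfl
      · exact h.trans (h₀ j hj)
    · refine ⟨i₀, Finset.mem_cons.mpr (Or.inr hi₀), fun j hj => ?_⟩
      rcases Finset.mem_cons.mp hj with rfl | hj
      · exact h
      · exact h₀ j hj

end Lemmas

section Main

variable {V : Type*} [CommRing V] [IsDomain V] [ValuationRing V]
  {I : Type*} [Finite I]
  {R : I → Type*} [∀ i, CommRing (R i)] [∀ i, Algebra V (R i)]
  {N : I → Type*} [∀ i, AddCommGroup (N i)] [∀ i, Module (R i) (N i)]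
  {N' : I → Type*} [∀ i, AddCommGroup (N' i)] [∀ i, Module (R i) (N' i)]

/-- `V`-scalar multiplication on families of linear maps. -/
def famSmul (v : V) (h : ∀ i, N i →ₗ[R i] N' i) : ∀ i, N i →ₗ[R i] N' i :=
  fun i => algebraMap V (R i) v • h i

@[simp] theorem famSmul_apply (v : V) (h : ∀ i, N i →ₗ[R i] N' i) (i : I) (n : N i) :
    famSmul v h i n = algebraMap V (R i) v • h i n := rfl

/-- **The algebraic form of `Val`.** -/
theorem val_alg
    [∀ i, Module.Finite (R i) (N i)] [∀ i, Module.Finite (R i) (N' i)]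
    (htf : ∀ i, VTorsionFree V (R := R i) (N' i))
    (hcont : ∀ i, HasContent V (R := R i) (N' i))
    (H : AddSubgroup (∀ i, N i →ₗ[R i] N' i))
    (hsmul : ∀ (v : V) (g : ∀ i, N i →ₗ[R i] N' i), g ∈ H → famSmul v g ∈ H)
    (hsat : ∀ (v : V) (g : ∀ i, N i →ₗ[R i] N' i), v ≠ 0 → famSmul v g ∈ H → g ∈ H)
    (hrk : ∀ h ∈ H, ∀ h' ∈ H, ∃ a b : V, (a ≠ 0 ∨ b ≠ 0) ∧ famSmul a h = famSmul b h')
    (hne : ∃ h ∈ H, h ≠ 0)
    (hdeg : ∀ (p : Ideal V), p.IsPrime → ∀ h ∈ H,
      (∀ i (n : N i), FibreZero (R i) p (h i n)) ∨ (∀ i, FibreSurj (h i) p)) :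
    ∃ h ∈ H, ∀ i, Function.Surjective (h i) := by
  classical
  cases nonempty_fintype I
  -- finite generating sets
  have hfg : ∀ i, ∃ S : Finset (N i), Submodule.span (R i) (S : Set (N i)) = ⊤ :=
    fun i => (Module.Finite.fg_top : (⊤ : Submodule (R i) (N i)).FG)
  choose S hS using hfg
  set J : Finset (Σ i, N i) := Finset.univ.sigma S with hJ
  have hJmem : ∀ j : Σ i, N i, j ∈ J ↔ j.2 ∈ S j.1 := by
    intro j
    rw [hJ, Finset.mem_sigma]
    simp
  have hzero_of_gens : ∀ f : ∀ i, N i →ₗ[R i] N' i, (∀ j ∈ J, f j.1 j.2 = 0) → f = 0 := by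
    intro f hf
    funext i
    apply LinearMap.ext_on (hS i)
    intro n hn
    exact hf ⟨i, n⟩ ((hJmem _).mpr hn)
  -- Step 1: a primitive member of `H`
  obtain ⟨h, hhH, hh0⟩ := hne
  have hcontJ : ∀ j : Σ i, N i, ∃ (c : V) (y' : N' j.1), h j.1 j.2 = algebraMap V (R j.1) c • y' ∧
      (h j.1 j.2 ≠ 0 → y' ∉ ((IsLocalRing.maximalIdeal V).map (algebraMap V (R j.1))) •
        (⊤ : Submodule (R j.1) (N' j.1))) := by
    intro j
    by_cases hj : h j.1 j.2 = 0
    · exact ⟨0, 0, by rw [hj, smul_zero], fun h1 => absurd hj h1⟩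
    · obtain ⟨c, y', hc, hy'⟩ := hcont j.1 _ hj
      exact ⟨c, y', hc, fun _ => hy'⟩
  choose cJ yJ hcJ hyJ using hcontJ
  set J' : Finset (Σ i, N i) := J.filter (fun j => h j.1 j.2 ≠ 0) with hJ'
  have hJ'ne : J'.Nonempty := by
    by_contra hemp
    rw [Finset.not_nonempty_iff_eq_empty] at hemp
    apply hh0
    apply hzero_of_gens
    intro j hj
    by_contra hne0
    have : j ∈ J' := Finset.mem_filter.mpr ⟨hj, hne0⟩
    rw [hemp] at this
    exact absurd this (Finset.notMem_empty _)
  obtain ⟨j₀, hj₀, hdvd⟩ := exists_dvd_all_finset J' hJ'ne cJ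
  have hj₀J : j₀ ∈ J := (Finset.mem_filter.mp hj₀).1
  have hj₀ne : h j₀.1 j₀.2 ≠ 0 := (Finset.mem_filter.mp hj₀).2
  set c₀ : V := cJ j₀ with hc₀
  have hc₀ne : c₀ ≠ 0 := by
    intro h0
    apply hj₀ne
    rw [hcJ j₀, ← hc₀, h0, map_zero, zero_smul]
  have hdivJ : ∀ j ∈ J, ∃ y : N' j.1, h j.1 j.2 = algebraMap V (R j.1) c₀ • y := by
    intro j hj
    by_cases hj0 : h j.1 j.2 = 0
    · exact ⟨0, by rw [hj0, smul_zero]⟩
    · obtain ⟨d, hd⟩ := hdvd j (Finset.mem_filter.mpr ⟨hj, hj0⟩)
      refine ⟨algebraMap V (R j.1) d • yJ j, ?_⟩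
      rw [hcJ j, hd, map_mul, mul_smul]
  have hdiv : ∀ i (n : N i), ∃ y : N' i, h i n = algebraMap V (R i) c₀ • y := by
    intro i
    apply forall_exists_eq_smul_of_span (h i) c₀ (S i) (hS i)
    intro n hn
    exact hdivJ ⟨i, n⟩ ((hJmem _).mpr hn)
  have hg : ∀ i, ∃ g : N i →ₗ[R i] N' i, h i = algebraMap V (R i) c₀ • g :=
    fun i => exists_linearMap_eq_smul (htf i) (h i) hc₀ne (hdiv i)
  choose g hgh using hg
  have hgH : g ∈ H := by
    apply hsat c₀ g hc₀ne
    have : famSmul c₀ g = h := by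
      funext i
      exact (hgh i).symm
    rw [this]
    exact hhH
  have hgprim : g j₀.1 j₀.2 ∉ ((IsLocalRing.maximalIdeal V).map (algebraMap V (R j₀.1))) •
      (⊤ : Submodule (R j₀.1) (N' j₀.1)) := by
    have h1 : g j₀.1 j₀.2 = yJ j₀ := by
      apply (htf j₀.1).cancel hc₀ne
      rw [← hcJ j₀, hgh j₀.1]
      rfl
    rw [h1]
    exact hyJ j₀ hj₀ne
  have hg0 : g j₀.1 j₀.2 ≠ 0 := by
    intro h0
    apply hgprim
    rw [h0]
    exact Submodule.zero_mem _
  -- Step 3: `H = V g`
  have hgen : ∀ h' ∈ H, ∃ a : V, h' = famSmul a g := by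
    intro h' hh'
    obtain ⟨a, b, hab, hEq⟩ := hrk h' hh' g hgH
    rcases ValuationRing.dvd_total a b with ⟨c', hc'⟩ | ⟨c', hc'⟩
    · have ha : a ≠ 0 := by
        rcases hab with ha | hb
        · exact ha
        · intro h0
          apply hb
          rw [hc', h0, zero_mul]
      refine ⟨c', ?_⟩
      funext i
      ext n
      apply (htf i).cancel ha
      have := congrArg (fun f => f i n) hEq
      simp only [famSmul_apply] at this
      rw [this, hc', map_mul, mul_smul]
      rfl
    · have hb : b ≠ 0 := by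
        rcases hab with ha | hb
        · intro h0
          apply ha
          rw [hc', h0, zero_mul]
        · exact hb
      have hEq' : ∀ i (n : N i), algebraMap V (R i) c' • h' i n = g i n := by
        intro i n
        apply (htf i).cancel hb
        have := congrArg (fun f => f i n) hEq
        simp only [famSmul_apply] at this
        rw [← this, hc', map_mul, mul_smul]
      by_cases hu : IsUnit c'
      · obtain ⟨u, rfl⟩ := hu
        refine ⟨((u⁻¹ : Vˣ) : V), ?_⟩
        funext i
        ext n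
        rw [famSmul_apply, ← hEq' i n, ← mul_smul, ← map_mul, Units.inv_mul, map_one, one_smul]
      · exfalso
        apply hgprim
        rw [← hEq' j₀.1 j₀.2]
        refine Submodule.smul_mem_smul (Ideal.mem_map_of_mem _ ?_) trivial
        exact (IsLocalRing.mem_maximalIdeal _).mpr hu
  -- Step 4 + 5
  refine ⟨g, hgH, fun i => ?_⟩
  apply surjective_of_forall_fibreSurj (V := V) (g i)
  intro p hp
  rcases hdeg p hp g hgH with hz | hs
  · exfalso
    -- `g` vanishes on the fibre over `p`: contradiction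
    have hzJ : ∀ j : Σ i, N i, ∃ (t : V) (m : V) (y : N' j.1), t ∉ p ∧ m ∈ p ∧
        algebraMap V (R j.1) t • g j.1 j.2 = algebraMap V (R j.1) m • y := by
      intro j
      obtain ⟨t, ht, hmem⟩ := hz j.1 j.2
      obtain ⟨m, hm, y, hy⟩ := exists_eq_algebraMap_smul_of_mem p hmem
      exact ⟨t, m, y, ht, hm, hy⟩
    choose tJ mJ zJ htJ hmJ hzJ' using hzJ
    set t : V := ∏ j ∈ J, tJ j with ht
    have htp : t ∉ p := by
      intro hmem
      obtain ⟨j, -, hjp⟩ := (Ideal.IsPrime.prod_mem_iff).mp hmem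
      exact htJ j hjp
    have ht0 : t ≠ 0 := fun h0 => htp (h0 ▸ p.zero_mem)
    have hJne : J.Nonempty := ⟨j₀, hj₀J⟩
    obtain ⟨j₁, hj₁, hdvd₁⟩ := exists_dvd_all_finset J hJne mJ
    set m₀ : V := mJ j₁ with hm₀
    have hm₀p : m₀ ∈ p := hmJ j₁
    have htdiv : ∀ j ∈ J, ∃ y : N' j.1,
        (algebraMap V (R j.1) t • g j.1) j.2 = algebraMap V (R j.1) m₀ • y := by
      intro j hj
      obtain ⟨d, hd⟩ := hdvd₁ j hj
      have h1 : t = (∏ j' ∈ J.erase j, tJ j') * tJ j := by
        rw [ht, Finset.prod_erase_mul _ _ hj]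
      refine ⟨algebraMap V (R j.1) ((∏ j' ∈ J.erase j, tJ j') * d) • zJ j, ?_⟩
      rw [LinearMap.smul_apply, h1, map_mul, mul_smul, hzJ' j, hd]
      simp only [← mul_smul, ← map_mul]
      congr 2
      ring
    by_cases hm0 : m₀ = 0
    · obtain ⟨y, hy⟩ := htdiv j₀ hj₀J
      rw [hm0, map_zero, zero_smul, LinearMap.smul_apply] at hy
      exact hg0 ((htf j₀.1) t _ ht0 hy)
    · have hg' : ∀ i, ∃ g' : N i →ₗ[R i] N' i,
          algebraMap V (R i) t • g i = algebraMap V (R i) m₀ • g' := by
        intro i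
        apply exists_linearMap_eq_smul (htf i) _ hm0
        apply forall_exists_eq_smul_of_span _ m₀ (S i) (hS i)
        intro n hn
        exact htdiv ⟨i, n⟩ ((hJmem _).mpr hn)
      choose g' hg'eq using hg'
      have hg'H : g' ∈ H := by
        apply hsat m₀ g' hm0
        have : famSmul m₀ g' = famSmul t g := by
          funext i
          exact (hg'eq i).symm
        rw [this]
        exact hsmul t g hgH
      obtain ⟨a, ha⟩ := hgen g' hg'H
      have h1 : algebraMap V (R j₀.1) t • g j₀.1 j₀.2 =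
          algebraMap V (R j₀.1) (m₀ * a) • g j₀.1 j₀.2 := by
        have h2 := congrArg (fun f => f j₀.2) (hg'eq j₀.1)
        simp only [LinearMap.smul_apply] at h2
        rw [h2, ha, famSmul_apply, map_mul, mul_smul]
      have h3 : algebraMap V (R j₀.1) (t - m₀ * a) • g j₀.1 j₀.2 = 0 := by
        rw [map_sub, sub_smul, h1, sub_self]
      have h4 : t = m₀ * a := by
        by_contra hne'
        exact hg0 ((htf j₀.1) _ _ (sub_ne_zero.mpr hne') h3)
      exact htp (h4 ▸ p.mul_mem_right a hm₀p)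
  · exact hs i

end Main

end Fermat.Agent.S25.H86
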